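import Mathlib
import Fermat.Agent.GAL.AN.Main
import Fermat.Agent.GAL.DESC.Main

/-!
# CAR / WN1 / Desc : two descents

* `exists_iotaS_eq_of_pow` : `H ∈ ℂ((q))`, `H ^ n ∈ ℚ̄((q))` ⇒ `H ∈ ℚ̄((q))`  (derivations).
* `mem_range_of_pow_mem_range` : `K ⊆ L`, `[L : K]` prime to `n`, `μ_n(L) ⊆ K`, `y ^ n ∈ K` ⇒ `y ∈ K`.
-/

set_option autoImplicit false

open ModularCurve AlgebraicCurve
open Fermat.Agent.S24
open Fermat.Agent.GAL Fermat.Agent.GAL.AN

noncomputable section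

namespace Fermat.Agent.CAR.WN1

theorem isAlgebraic_int_iota (a : Qb) : IsAlgebraic ℤ (iota a) := by
  have h0 : Algebra.IsAlgebraic ℚ Qb := AlgebraicClosure.isAlgebraic ℚ
  have h1 : IsAlgebraic ℚ a := Algebra.IsAlgebraic.isAlgebraic a
  have h2 : IsAlgebraic ℤ a := (IsFractionRing.isAlgebraic_iff ℤ ℚ Qb).mpr h1
  exact IsAlgebraic.algHom iota.toIntAlgHom h2

/-- an `n`-th root in `ℂ((q))` of a series with algebraic coefficients has algebraic
coefficients. -/
theorem exists_iotaS_eq_of_pow {H : LaurentSeries ℂ} {N : LaurentSeries Qb} {n : ℕ} (hn : n ≠ 0)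
    (hH : H ^ n = iotaS N) : ∃ y : LaurentSeries Qb, iotaS y = H := by
  rcases eq_or_ne H 0 with rfl | h0
  · exact ⟨0, map_zero _⟩
  apply DESC.exists_coeffMap_eq iota
  intro D
  have h1 : DESC.dS D (H ^ n) = 0 := by
    rw [hH]
    exact DESC.dS_coeffMap D iota
      (fun a => DESC.derivation_eq_zero_of_isAlgebraic D (isAlgebraic_int_iota a)) N
  rw [Derivation.leibniz_pow, smul_eq_mul, nsmul_eq_mul] at h1
  have hn' : ((n : ℕ) : LaurentSeries ℂ) ≠ 0 := by
    rw [← map_natCast (algebraMap ℂ (LaurentSeries ℂ))]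
    exact (map_ne_zero _).mpr (Nat.cast_ne_zero.mpr hn)
  have h2 := (mul_eq_zero.mp h1).resolve_left hn'
  exact (mul_eq_zero.mp h2).resolve_left (pow_ne_zero _ h0)

/-- **degree argument**. -/
theorem mem_range_of_pow_mem_range {K L : Type*} [Field K] [Field L] [Algebra K L]
    {n : ℕ} (hn : n ≠ 0) (hcop : Nat.Coprime n (Module.finrank K L))
    (hμ : ∀ ζ : L, ζ ^ n = 1 → ζ ∈ (algebraMap K L).range) {y : L}
    (hy : y ^ n ∈ (algebraMap K L).range) : y ∈ (algebraMap K L).range := by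
  rcases eq_or_ne y 0 with rfl | h0
  · exact zero_mem _
  set d := Module.finrank K L with hd
  obtain ⟨c, hc⟩ := hy
  -- `N(y)^n = c^d`
  have h1 : Algebra.norm K y ^ n = c ^ d := by
    rw [← map_pow, ← hc, Algebra.norm_algebraMap]
  have hN0 : algebraMap K L (Algebra.norm K y) ≠ 0 := by
    intro h
    have h2 : Algebra.norm K y = 0 := (map_eq_zero _).mp h
    rw [h2] at h1
    rw [zero_pow hn] at h1
    have h3 : c = 0 := by
      by_contra hc0
      exact pow_ne_zero d hc0 h1.symm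
    rw [h3, map_zero] at hc
    exact pow_ne_zero n h0 hc.symm
  have h2 : (y ^ d / algebraMap K L (Algebra.norm K y)) ^ n = 1 := by
    rw [div_pow, ← map_pow, h1, map_pow, hc, ← pow_mul, ← pow_mul, mul_comm,
      div_self (pow_ne_zero _ h0)]
  obtain ⟨e, he⟩ := hμ _ h2
  have h3 : y ^ d ∈ (algebraMap K L).range :=
    ⟨e * Algebra.norm K y, by rw [map_mul, he, div_mul_cancel₀ _ hN0]⟩
  have h4 : y ^ n ∈ (algebraMap K L).range := ⟨c, hc⟩
  have h5 : y = (y ^ n) ^ (Nat.gcdA n d) * (y ^ d) ^ (Nat.gcdB n d) := by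
    rw [← zpow_natCast y n, ← zpow_natCast y d, ← zpow_mul, ← zpow_mul, ← zpow_add₀ h0,
      ← Nat.gcd_eq_gcd_ab, hcop.gcd_eq_one]
    simp
  rw [h5]
  have hF : ∀ (z : L) (k : ℤ), z ∈ (algebraMap K L).range → z ^ k ∈ (algebraMap K L).range := by
    rintro z k ⟨w, rfl⟩
    exact ⟨w ^ k, map_zpow₀ _ _ _⟩
  exact mul_mem (hF _ _ h4) (hF _ _ h3)

end Fermat.Agent.CAR.WN1
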