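import Mathlib
import Fermat.Agent.GR.HeckeField.Main

/-!
# CAR / WN1 / Norm : the norm `FN (M ℓ) → FN M` along `alp` is the product over coset
representatives of `Γ₀(M ℓ) \ Γ₀(M)`; `[FN (M ℓ) : FN M] = [Γ₀(M) : Γ₀(M ℓ)]`  (any `M`, `ℓ`).
-/

set_option autoImplicit false

open ModularCurve AlgebraicCurve CongruenceSubgroup UpperHalfPlane IntermediateField
open Fermat.Agent.S24 Fermat.Agent.S28 Fermat.Agent.GR.HeckeField
open scoped MatrixGroups

noncomputable section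

namespace Fermat.Agent.CAR.WN1

variable (M ℓ : ℕ) [NeZero M] [NeZero ℓ]

attribute [local instance] algFN

theorem Gamma0_mul_le : Gamma0 (M * ℓ) ≤ Gamma0 M := by
  intro γ hγ
  rw [Gamma0_mem, ZMod.intCast_zmod_eq_zero_iff_dvd] at hγ ⊢
  exact (Int.natCast_dvd_natCast.mpr (Dvd.intro ℓ rfl)).trans hγ

theorem finrank_FN_mul_eq_relIndex :
    Module.finrank (FN M) (FN (M * ℓ)) = (Gamma0 (M * ℓ)).relIndex (Gamma0 M) := by
  have h1 := finrank_tower_adjoin (K := Kb) (F := FN M) (F' := FN (M * ℓ)) (JJ M)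
  have h2 : algebraMap (FN M) (FN (M * ℓ)) (JJ M) = JJ (M * ℓ) := alp_Jd M ℓ 1 (one_dvd M)
  rw [h2, finrank_FN, finrank_FN] at h1
  have h3 := Subgroup.relIndex_mul_index (Gamma0_mul_le M ℓ)
  have h4 : 0 < Nat.card (Cos M) := Nat.card_pos
  have h5 : (Gamma0 M).index = Nat.card (Cos M) := rfl
  have h6 : (Gamma0 (M * ℓ)).index = Nat.card (Cos (M * ℓ)) := rfl
  rw [h5, h6, ← h1, mul_comm] at h3
  exact (Nat.eq_of_mul_eq_mul_left h4 h3).symm

theorem finrank_FN_mul_pos : 0 < Module.finrank (FN M) (FN (M * ℓ)) := by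
  have h1 := finrank_tower_adjoin (K := Kb) (F := FN M) (F' := FN (M * ℓ)) (JJ M)
  have h2 : algebraMap (FN M) (FN (M * ℓ)) (JJ M) = JJ (M * ℓ) := alp_Jd M ℓ 1 (one_dvd M)
  rw [h2, finrank_FN, finrank_FN] at h1
  have h4 : 0 < Nat.card (Cos (M * ℓ)) := Nat.card_pos
  rw [← h1] at h4
  exact Nat.pos_of_mul_pos_left h4

theorem finiteDimensional_FN_mul' : FiniteDimensional (FN M) (FN (M * ℓ)) :=
  Module.finite_of_finrank_pos (finrank_FN_mul_pos M ℓ)

variable {M ℓ}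

theorem emb_eq_iff {γ δ : SL(2, ℤ)} (h : emb M ℓ γ = emb M ℓ δ) : γ⁻¹ * δ ∈ Gamma0 (M * ℓ) := by
  have h1 : phi (M * ℓ) (QuotientGroup.mk γ) = phi (M * ℓ) (QuotientGroup.mk δ) := by
    apply AlgHom.ext
    intro x
    rw [phi_mk, phi_mk]
    apply LamL_injective
    exact DFunLike.congr_fun h x
  exact QuotientGroup.eq.mp (phi_injective (M * ℓ) h1)

/-- **the norm as a product over coset representatives**. -/
theorem kap_alp_norm {ι : Type*} [Fintype ι] (γ : ι → SL(2, ℤ)) (hmem : ∀ x, γ x ∈ Gamma0 M)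
    (hinj : ∀ x y, (γ x)⁻¹ * γ y ∈ Gamma0 (M * ℓ) → x = y)
    (hcard : Module.finrank (FN M) (FN (M * ℓ)) ≤ Fintype.card ι) (z : FN (M * ℓ)) :
    kap (M * ℓ) (alp M ℓ (Algebra.norm (FN M) z)) = ∏ x, emb M ℓ (γ x) z := by
  have := finiteDimensional_FN_mul' M ℓ
  have hne : Nonempty ι := by
    rw [← Fintype.card_pos_iff]
    exact lt_of_lt_of_le (finrank_FN_mul_pos M ℓ) hcard
  obtain ⟨x₀⟩ := hne
  have key := norm_eq_prod_of_ringHoms (K := FN M) (L := FN (M * ℓ))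
    (fun x => emb M ℓ (γ x)) (fun x y hxy => hinj x y (emb_eq_iff hxy))
    (fun i j x => by
      show emb M ℓ _ (alp M ℓ x) = emb M ℓ _ (alp M ℓ x)
      rw [emb_alp M ℓ (hmem i), emb_alp M ℓ (hmem j)])
    hcard x₀ z
  rw [← key]
  exact (emb_alp M ℓ (hmem x₀) _).symm

end Fermat.Agent.CAR.WN1
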