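import Mathlib
import Fermat.Agent.GAL.AN.Main
import Fermat.Agent.GAL.HK.Parabolic

/-!
# CAR / WN1 / Tr : multiplicative transfer of character functions along a Hecke datum with
representatives in `SL(2, ℤ)`

`D` a Hecke datum on `Γ₀(M)`, `g x ∈ SL(2, ℤ)` with `g x γ = coc γ x · g (perm γ x)`.
`trM a = ∏ₓ a ∘ g x`.  If `a` has character `P` then `trM a` has character `D.T P`.
-/

set_option autoImplicit false

open ModularCurve AlgebraicCurve CongruenceSubgroup UpperHalfPlane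
open Fermat.Agent.S24
open Fermat.Agent.GAL Fermat.Agent.GAL.AN Fermat.Agent.GAL.HK
open scoped MatrixGroups

noncomputable section

namespace Fermat.Agent.CAR.WN1

variable {M n : ℕ} (D : HeckeDatum (Gamma0 M)) (g : D.ι → SL(2, ℤ))

/-- the `g x` are representatives for the datum `D`. -/
def IsRep : Prop := ∀ (γ : Gamma0 M) (x : D.ι),
  g x * (γ : SL(2, ℤ)) = ((D.coc γ x : Gamma0 M) : SL(2, ℤ)) * g (D.perm γ x)

/-- the multiplicative transfer `τ ↦ ∏ₓ a (g x • τ)`. -/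
def trM (a : MerMod M) : MerMod M := ∏ x, (g x)⁻¹ • a

theorem trM_apply (a : MerMod M) (τ : ℍ) : (trM D g a).1 τ = ∏ x, a.1 (g x • τ) := by
  have h1 : (trM D g a).1 τ = evalM M τ (trM D g a) := rfl
  rw [h1, trM, map_prod]
  refine Finset.prod_congr rfl fun x _ => ?_
  have h2 : evalM M τ ((g x)⁻¹ • a) = ((g x)⁻¹ • a).1 τ := rfl
  rw [h2, smul_MerMod_apply, inv_inv]

theorem trM_ne_zero [NeZero M] {a : MerMod M} (ha : a ≠ 0) : trM D g a ≠ 0 := by
  rw [trM, Finset.prod_ne_zero_iff]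
  intro x _
  exact (smul_ne_zero_iff_ne _).mpr ha

variable {D g}

/-- the transfer on parabolic characters. -/
def trP (hg : IsRep D g) (P : HPar M n) : HPar M n :=
  ⟨D.T (ZMod n) (HPar.hom P),
    isParabolicHom_of_datum D (fun x => Matrix.SpecialLinearGroup.mapGL ℝ (g x))
      (fun γ x => by rw [← map_mul, hg, map_mul]) _ P.2⟩

theorem trP_hom (hg : IsRep D g) (P : HPar M n) :
    HPar.hom (trP hg P) = D.T (ZMod n) (HPar.hom P) := rfl

theorem trP_eq_of_sub (hg : IsRep D g) {Pa Pb : HPar M n}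
    (h : D.T (ZMod n) (HPar.hom (Pa - Pb)) = 0) : trP hg Pa = trP hg Pb := by
  apply Subtype.ext
  show D.T (ZMod n) (HPar.hom Pa) = D.T (ZMod n) (HPar.hom Pb)
  have h1 : HPar.hom (Pa - Pb) = HPar.hom Pa - HPar.hom Pb := rfl
  rw [h1, map_sub] at h
  exact sub_eq_zero.mp h

theorem isCharFun_trM [NeZero n] (hg : IsRep D g) {a : MerMod M} {P : HPar M n}
    (ha : IsCharFun M n a P) : IsCharFun M n (trM D g a) (trP hg P) := by
  intro γ τ
  rw [trM_apply, trM_apply]
  show _ = eN n (D.T (ZMod n) (HPar.hom P) (Additive.ofMul γ)) * _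
  rw [HeckeDatum.T_apply, eN_sum, ← Equiv.prod_comp (D.perm γ) (fun j => a.1 (g j • τ)),
    ← Finset.prod_mul_distrib]
  refine Finset.prod_congr rfl fun x _ => ?_
  rw [← mul_smul, hg, mul_smul, ha]

/-- **transfer of realisable series**. -/
theorem exists_isRealC_tr [NeZero M] [NeZero n] (hg : IsRep D g) {H : LaurentSeries ℂ}
    {Pa Pb : HPar M n} (h : IsRealC M n H Pa Pb) :
    ∃ H' : LaurentSeries ℂ, IsRealC M n H' (trP hg Pa) (trP hg Pb) ∧
      ∀ (k : ℕ) (w : LL M), LamL M w = kapC M (H ^ k) →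
        kapC M (H' ^ k) = ∏ x, LamL M ((g x)⁻¹ • w) := by
  obtain ⟨a, b, ha, hb, hPa, hPb, hab⟩ := h
  have hPa' := isCharFun_trM hg hPa
  have hPb' := isCharFun_trM hg hPb
  obtain ⟨A, hA⟩ := hPa'.exists_kapC
  obtain ⟨B, hB⟩ := hPb'.exists_kapC
  have hb' : LamM M (trM D g b) ≠ 0 := LamM_ne_zero (trM_ne_zero D g hb)
  have hLb : LamM M b ≠ 0 := LamM_ne_zero hb
  have hkB : kapC M B ≠ 0 := hB ▸ hb'
  refine ⟨A / B, ⟨trM D g a, trM D g b, trM_ne_zero D g ha, trM_ne_zero D g hb, hPa', hPb', ?_⟩, ?_⟩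
  · rw [map_div₀, hA, hB, div_mul_cancel₀ _ hkB]
  · intro k w hw
    have hw' : w = (algebraMap (MerMod M) (LL M) a / algebraMap (MerMod M) (LL M) b) ^ k := by
      apply LamL_injective M
      rw [hw, map_pow, map_pow, map_div₀, LamL_algebraMap, LamL_algebraMap, hab,
        mul_div_cancel_right₀ _ hLb]
    have h1 : ∀ x : D.ι, LamL M ((g x)⁻¹ • w) =
        (LamM M ((g x)⁻¹ • a) / LamM M ((g x)⁻¹ • b)) ^ k := by
      intro x
      have h2 : (g x)⁻¹ • w = MulSemiringAction.toRingHom SL(2, ℤ) (LL M) (g x)⁻¹ w := rfl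
      rw [h2, hw', map_pow, map_div₀, map_pow, map_div₀]
      simp only [MulSemiringAction.toRingHom_apply, smul_algebraMap_LL, LamL_algebraMap]
    rw [Finset.prod_congr rfl fun x _ => h1 x, Finset.prod_pow, Finset.prod_div_distrib,
      ← map_prod, ← map_prod, map_pow, map_div₀, ← hA, ← hB]
    rfl

end Fermat.Agent.CAR.WN1
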