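import Mathlib
import Fermat.Agent.CAR.WN1.Tr
import Fermat.Agent.CAR.WN1.Desc
import Fermat.Agent.CAR.WN1.Norm

/-!
# CAR / WN1 / Main : the analytic lemma `AnN1`

`u ∈ Van (M₀ q) n` whose character is killed by the transfer `Γ₀(M₀ q) < Γ₀(M₀)`:
the norm `N₁(uⁿ) ∈ FN M₀` (along `alp`) is an `n`-th power in `FL ℚ̄ M₀`
(if `n` is prime to the degree).
-/

set_option autoImplicit false

open ModularCurve AlgebraicCurve CongruenceSubgroup UpperHalfPlane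
open Fermat.Agent.S24 Fermat.Agent.S28 Fermat.Agent.GR.HeckeField
open Fermat.Agent.GAL Fermat.Agent.GAL.AN Fermat.Agent.GAL.HK
open scoped MatrixGroups

noncomputable section

namespace Fermat.Agent.CAR.WN1

attribute [local instance] algFN

variable {M₀ q n : ℕ} [NeZero M₀] [NeZero q] [NeZero n]

/-- the `n`-th roots of unity of `FN (M₀ q)` are constants. -/
theorem rootsOfUnity_mem_range (ζ : FN (M₀ * q)) (hζ : ζ ^ n = 1) :
    ζ ∈ (algebraMap (FN M₀) (FN (M₀ * q))).range := by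
  obtain ⟨ξ₀, hξ₀⟩ := HasEnoughRootsOfUnity.exists_primitiveRoot Kb n
  have hξ : IsPrimitiveRoot (algebraMap Kb (FN (M₀ * q)) ξ₀) n :=
    hξ₀.map_of_injective (algebraMap Kb (FN (M₀ * q))).injective
  obtain ⟨i, -, hi⟩ := hξ.eq_pow_of_pow_eq_one hζ
  refine ⟨algebraMap Kb (FN M₀) (ξ₀ ^ i), ?_⟩
  rw [← hi, ← map_pow]
  exact (alp M₀ q).commutes _

/-- **AnN1, level `M₀ q`**: the norm is an `n`-th power in `FL ℚ̄ (M₀ q)`. -/
theorem exists_root_norm_top (D : HeckeDatum (Gamma0 (M₀ * q))) (g : D.ι → SL(2, ℤ))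
    (hg : IsRep D g) (hmem : ∀ x, g x ∈ Gamma0 M₀)
    (hinj : ∀ x y, g x * (g y)⁻¹ ∈ Gamma0 (M₀ * q) → x = y)
    (hcard : Module.finrank (FN M₀) (FN (M₀ * q)) ≤ Fintype.card D.ι)
    (u : Van (M₀ * q) n) (hu : D.T (ZMod n) (HPar.hom (chrFun u)) = 0)
    (hz : ((u : (LaurentSeries Qb)ˣ) : LaurentSeries Qb) ^ n ∈ FL Qb (M₀ * q)) :
    ∃ y ∈ FL Qb (M₀ * q), y ^ n =
      ((Algebra.norm (FN M₀) (⟨_, hz⟩ : FN (M₀ * q)) : FN M₀) : LaurentSeries Qb) := by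
  obtain ⟨Pa, Pb, hr, eu⟩ := exists_isReal u
  obtain ⟨H', hH', hform⟩ := exists_isRealC_tr hg hr
  have hP : trP hg Pa = trP hg Pb := trP_eq_of_sub hg (eu ▸ hu)
  rw [hP] at hH'
  have hH'mem : H' ∈ FL ℂ (M₀ * q) := hH'.mem_FL
  set z : FN (M₀ * q) := ⟨_, hz⟩ with hzdef
  have h1 : LamL (M₀ * q) (Psi (M₀ * q) z) =
      kapC (M₀ * q) (iotaS ((u : (LaurentSeries Qb)ˣ) : LaurentSeries Qb) ^ n) := by
    rw [LamL_Psi, kap_apply, ← map_pow]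
    rfl
  have h2 := hform n _ h1
  have h3 := kap_alp_norm (M := M₀) (ℓ := q) (fun x => (g x)⁻¹) (fun x => inv_mem (hmem x))
    (fun x y h => hinj x y (by simpa using h)) hcard z
  have h4 : kapC (M₀ * q) (H' ^ n) =
      kapC (M₀ * q) (iotaS ((Algebra.norm (FN M₀) z : FN M₀) : LaurentSeries Qb)) := by
    rw [h2]
    have h5 : kap (M₀ * q) (alp M₀ q (Algebra.norm (FN M₀) z)) =
        kapC (M₀ * q) (iotaS ((Algebra.norm (FN M₀) z : FN M₀) : LaurentSeries Qb)) := by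
      rw [kap_apply, coe_heckeAlphaBar]
      rfl
    rw [← h5, h3]
    rfl
  have h5 := kapC_injective _ h4
  obtain ⟨y, hy⟩ := exists_iotaS_eq_of_pow (NeZero.ne n) h5
  refine ⟨y, mem_FL_of_iotaS_mem _ (hy ▸ hH'mem), ?_⟩
  apply iotaS_injective
  rw [map_pow, hy, h5]

/-- **AnN1**: the norm is an `n`-th power in `FL ℚ̄ M₀`. -/
theorem exists_root_norm (D : HeckeDatum (Gamma0 (M₀ * q))) (g : D.ι → SL(2, ℤ))
    (hg : IsRep D g) (hmem : ∀ x, g x ∈ Gamma0 M₀)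
    (hinj : ∀ x y, g x * (g y)⁻¹ ∈ Gamma0 (M₀ * q) → x = y)
    (hcard : Module.finrank (FN M₀) (FN (M₀ * q)) ≤ Fintype.card D.ι)
    (hcop : Nat.Coprime n (Module.finrank (FN M₀) (FN (M₀ * q))))
    (u : Van (M₀ * q) n) (hu : D.T (ZMod n) (HPar.hom (chrFun u)) = 0)
    (hz : ((u : (LaurentSeries Qb)ˣ) : LaurentSeries Qb) ^ n ∈ FL Qb (M₀ * q)) :
    ∃ y ∈ FL Qb M₀, y ^ n =
      ((Algebra.norm (FN M₀) (⟨_, hz⟩ : FN (M₀ * q)) : FN M₀) : LaurentSeries Qb) := by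
  obtain ⟨y, hy, hyn⟩ := exists_root_norm_top D g hg hmem hinj hcard u hu hz
  have h1 : (⟨y, hy⟩ : FN (M₀ * q)) ^ n ∈ (algebraMap (FN M₀) (FN (M₀ * q))).range := by
    refine ⟨Algebra.norm (FN M₀) (⟨_, hz⟩ : FN (M₀ * q)), ?_⟩
    apply Subtype.ext
    show ((alp M₀ q _ : FN (M₀ * q)) : LaurentSeries Qb) = y ^ n
    rw [coe_heckeAlphaBar, hyn]
  obtain ⟨y₀, hy₀⟩ := mem_range_of_pow_mem_range (NeZero.ne n) hcop
    (fun ζ hζ => rootsOfUnity_mem_range ζ hζ) h1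
  have h2 : (y₀ : LaurentSeries Qb) = y := by
    have := congrArg (fun t : FN (M₀ * q) => (t : LaurentSeries Qb)) hy₀
    simp only at this
    rw [← this]
    exact (coe_heckeAlphaBar M₀ q y₀).symm
  exact ⟨y, h2 ▸ y₀.2, hyn⟩

end Fermat.Agent.CAR.WN1
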