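import Mathlib
import Fermat.Agent.CAR.WN1.Main
import Fermat.Agent.CAR.WN.SysTr

/-!
# CAR / WN1 / Conc : `AnN1` for the concrete transfer datum `WN.datumTr` (`Γ₀(L q) < Γ₀(L)`, `q ∣ L`)
-/

set_option autoImplicit false

open ModularCurve AlgebraicCurve CongruenceSubgroup UpperHalfPlane
open Fermat.Agent.S24 Fermat.Agent.S28 Fermat.Agent.GR.HeckeField
open Fermat.Agent.GAL Fermat.Agent.GAL.AN Fermat.Agent.GAL.HK
open Fermat.Agent.CAR.WN
open scoped MatrixGroups

noncomputable section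

namespace Fermat.Agent.CAR.WN1

attribute [local instance] algFN

theorem dedekindPsi_mul_of_dvd {L q : ℕ} (hq : q.Prime) (hqL : q ∣ L) (hL : L ≠ 0) :
    dedekindPsi (L * q) = dedekindPsi L * q := by
  obtain ⟨k, L', hL', rfl⟩ := Nat.exists_eq_pow_mul_and_not_dvd hL q hq.ne_one
  obtain ⟨j, rfl⟩ : ∃ j, k = j + 1 := by
    refine ⟨k - 1, ?_⟩
    rcases Nat.eq_zero_or_pos k with rfl | hk
    · rw [pow_zero, one_mul] at hqL
      exact absurd hqL hL'
    · omega
  have hc : ∀ i : ℕ, Nat.Coprime (q ^ i) L' := fun i =>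
    Nat.Coprime.pow_left i ((Nat.Prime.coprime_iff_not_dvd hq).mpr hL')
  have e : q ^ (j + 1) * L' * q = q ^ (j + 1 + 1) * L' := by ring
  rw [e, Lib.Gamma0Cosets.dedekindPsi_mul (hc _), Lib.Gamma0Cosets.dedekindPsi_mul (hc _),
    Lib.Gamma0Cosets.dedekindPsi_prime_pow hq, Lib.Gamma0Cosets.dedekindPsi_prime_pow hq]
  ring

variable {L q : ℕ} [NeZero L] [NeZero q]

/-- `[FN (L q) : FN L] = q` for `q ∣ L`. -/
theorem finrank_FN_mul_of_dvd (hq : q.Prime) (hqL : q ∣ L) :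
    Module.finrank (FN L) (FN (L * q)) = q := by
  have h1 := finrank_tower_adjoin (K := Kb) (F := FN L) (F' := FN (L * q)) (JJ L)
  have h2 : algebraMap (FN L) (FN (L * q)) (JJ L) = JJ (L * q) := alp_Jd L q 1 (one_dvd L)
  rw [h2, finrank_FN, finrank_FN, Lib.Gamma0Cosets.card_quotient, Lib.Gamma0Cosets.card_quotient,
    dedekindPsi_mul_of_dvd hq hqL (NeZero.ne L)] at h1
  have h4 : 0 < dedekindPsi L := by
    rw [← Lib.Gamma0Cosets.card_quotient L]
    exact Nat.card_pos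
  exact Nat.eq_of_mul_eq_mul_left h4 h1

/-- the representatives of `datumTr`. -/
def gTr (hq : q.Prime) (hqL : q ∣ L) : (datumTr hq hqL).ι → SL(2, ℤ) :=
  fun j : ZMod q => lowG L (j.val : ℤ)

theorem isRep_gTr (hq : q.Prime) (hqL : q ∣ L) : IsRep (datumTr hq hqL) (gTr hq hqL) := by
  intro γ x
  have key : ∀ j : ZMod q, lowG L (j.val : ℤ) * (γ : SL(2, ℤ)) =
      (((sysTr hq hqL).coc γ j : Gamma0 (L * q)) : SL(2, ℤ)) *
        lowG L (((sysTr hq hqL).perm γ j).val : ℤ) := by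
    intro j
    have h := (sysTr hq hqL).coc_spec γ j
    rw [sysTr_rep, sysTr_rep, ← map_mul, ← map_mul] at h
    exact Matrix.SpecialLinearGroup.mapGL_injective (R := ℤ) (S := ℝ) h
  exact key x

theorem lowG_inj {j j' : ZMod q}
    (h : lowG L (j.val : ℤ) * (lowG L (j'.val : ℤ))⁻¹ ∈ Gamma0 (L * q)) : j = j' := by
  rw [← lowG_neg, ← lowG_add, mem_Gamma0_iff_dvd', lowG_apply_one_zero] at h
  have hL : (L : ℤ) ≠ 0 := by exact_mod_cast NeZero.ne L
  have h1 : (q : ℤ) ∣ (j.val : ℤ) + -(j'.val : ℤ) := by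
    have h2 : (L : ℤ) * (q : ℤ) ∣ (L : ℤ) * ((j.val : ℤ) + -(j'.val : ℤ)) := by
      have e : ((L * q : ℕ) : ℤ) = (L : ℤ) * q := by push_cast; ring
      rw [e, mul_comm ((j.val : ℤ) + -(j'.val : ℤ))] at h
      exact h
    exact (mul_dvd_mul_iff_left hL).mp h2
  have h3 := (ZMod.intCast_zmod_eq_zero_iff_dvd _ q).mpr h1
  push_cast at h3
  rw [ZMod.natCast_zmod_val, ZMod.natCast_zmod_val] at h3
  exact add_neg_eq_zero.mp h3

/-- the norm formula, in the shape of helper1's #1845. -/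
theorem kap_alp_norm_lowG (hq : q.Prime) (hqL : q ∣ L) (z : FN (L * q)) :
    kap (L * q) (alp L q (Algebra.norm (FN L) z)) =
      ∏ j : ZMod q, emb L q (lowG L (j.val : ℤ))⁻¹ z :=
  kap_alp_norm (fun j : ZMod q => (lowG L (j.val : ℤ))⁻¹)
    (fun j => inv_mem (lowG_mem_Gamma0 L _))
    (fun j j' h => lowG_inj (by simpa using h))
    (by rw [finrank_FN_mul_of_dvd hq hqL, ZMod.card]) z

variable {n : ℕ} [NeZero n]

/-- **AnN1** for `datumTr`: if the transfer kills the character of `u` then the norm of `uⁿ` to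
level `L` is an `n`-th power at level `L`. -/
theorem exists_root_N1 (hq : q.Prime) (hqL : q ∣ L) (hn : ¬ q ∣ n) (u : Van (L * q) n)
    (hu : (datumTr hq hqL).T (ZMod n) (HPar.hom (chrFun u)) = 0)
    (hz : ((u : (LaurentSeries Qb)ˣ) : LaurentSeries Qb) ^ n ∈ FL Qb (L * q)) :
    ∃ y ∈ FL Qb L, y ^ n =
      ((Algebra.norm (FN L) (⟨_, hz⟩ : FN (L * q)) : FN L) : LaurentSeries Qb) := by
  have hc : Fintype.card (datumTr hq hqL).ι = q := ZMod.card q
  refine exists_root_norm (datumTr hq hqL) (gTr hq hqL) (isRep_gTr hq hqL)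
    (fun x => lowG_mem_Gamma0 L _) (fun x y h => lowG_inj h)
    (by rw [finrank_FN_mul_of_dvd hq hqL, hc])
    (by
      rw [finrank_FN_mul_of_dvd hq hqL]
      exact ((Nat.Prime.coprime_iff_not_dvd hq).mpr hn).symm) u hu hz

end Fermat.Agent.CAR.WN1
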